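/-
S41 / C4 [CSP], file F4 (B3) support (helper24): arithmetic of the ideals `M ℤ[1/q] ⊆ ℤ[1/q] ⊆ ℚ`
in the landed vocabulary `IsAway q x` (`x ∈ ℤ[1/q]`), `IsCongZero q M x` (`x ∈ M ℤ[1/q]`):
ideal closure properties, `mA ∩ KA = mKA` for coprime `m, K`, and Euler's theorem in `ℤ[1/q]`.
-/
import Mathlib.FieldTheory.Finite.Basic
import Fermat.Agent.S41.Ihara95.Core

set_option autoImplicit false

namespace Fermat.Agent.S41.CSP24

open Fermat.Agent.S41.Amalgam95 Fermat.Agent.S41.Ihara95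

variable {q M K : ℕ} {x y : ℚ}

lemma cz_isAway (h : IsCongZero q M x) : IsAway q x := by
  obtain ⟨r, hr, rfl⟩ := h
  have := (IsAway.of_int (q := q) (M : ℤ)).mul hr
  simpa using this

lemma cz_zero : IsCongZero q M 0 := ⟨0, IsAway.zero, by simp⟩

lemma cz_add (hx : IsCongZero q M x) (hy : IsCongZero q M y) : IsCongZero q M (x + y) := by
  obtain ⟨r, hr, rfl⟩ := hx
  obtain ⟨s, hs, rfl⟩ := hy
  exact ⟨r + s, hr.add hs, by ring⟩

lemma cz_neg (hx : IsCongZero q M x) : IsCongZero q M (-x) := by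
  obtain ⟨r, hr, rfl⟩ := hx
  exact ⟨-r, hr.neg, by ring⟩

lemma cz_sub (hx : IsCongZero q M x) (hy : IsCongZero q M y) : IsCongZero q M (x - y) := by
  obtain ⟨r, hr, rfl⟩ := hx
  obtain ⟨s, hs, rfl⟩ := hy
  exact ⟨r - s, hr.sub hs, by ring⟩

lemma cz_mul_left (hx : IsAway q x) (hy : IsCongZero q M y) : IsCongZero q M (x * y) := by
  obtain ⟨s, hs, rfl⟩ := hy
  exact ⟨x * s, hx.mul hs, by ring⟩

lemma cz_mul_right (hx : IsCongZero q M x) (hy : IsAway q y) : IsCongZero q M (x * y) := by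
  obtain ⟨r, hr, rfl⟩ := hx
  exact ⟨r * y, hr.mul hy, by ring⟩

lemma cz_mul_cz (hx : IsCongZero q M x) (hy : IsCongZero q K y) :
    IsCongZero q (M * K) (x * y) := by
  obtain ⟨r, hr, rfl⟩ := hx
  obtain ⟨s, hs, rfl⟩ := hy
  exact ⟨r * s, hr.mul hs, by push_cast; ring⟩

lemma cz_of_dvd (h : M ∣ K) (hx : IsCongZero q K x) : IsCongZero q M x := by
  obtain ⟨e, rfl⟩ := h
  obtain ⟨r, hr, rfl⟩ := hx
  have he : IsAway q (e : ℚ) := by simpa using IsAway.of_int (q := q) (e : ℤ)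
  exact ⟨(e : ℚ) * r, he.mul hr, by push_cast; ring⟩

lemma cz_one_iff : IsCongZero q 1 x ↔ IsAway q x := by
  constructor
  · exact cz_isAway
  · intro h
    exact ⟨x, h, by simp⟩

/-- `mA ∩ KA = mKA` for coprime `m, K`. -/
lemma cz_mul_of_coprime (hMK : Nat.Coprime M K) (hx : IsCongZero q M x) (hy : IsCongZero q K x) :
    IsCongZero q (M * K) x := by
  obtain ⟨r, hr, h1⟩ := hx
  obtain ⟨s, hs, h2⟩ := hy
  have hcop : IsCoprime (M : ℤ) (K : ℤ) := by
    rw [Int.isCoprime_iff_gcd_eq_one, Int.gcd_natCast_natCast]; exact hMK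
  obtain ⟨u, v, huv⟩ := hcop
  have huv' : (u : ℚ) * M + v * K = 1 := by exact_mod_cast huv
  refine ⟨u * s + v * r, ((IsAway.of_int u).mul hs).add ((IsAway.of_int v).mul hr), ?_⟩
  have : x = x * ((u : ℚ) * M + v * K) := by rw [huv', mul_one]
  rw [this]
  push_cast
  calc x * ((u : ℚ) * M + v * K) = u * M * x + v * K * x := by ring
    _ = u * M * ((K : ℚ) * s) + v * K * ((M : ℚ) * r) := by rw [← h2, ← h1]
    _ = (M : ℚ) * K * (u * s + v * r) := by ring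

lemma isAway_pow {a : ℚ} (ha : IsAway q a) (n : ℕ) : IsAway q (a ^ n) := by
  induction n with
  | zero => simpa using IsAway.one (q := q)
  | succ n ih => rw [pow_succ]; exact ih.mul ha

/-- `a ≡ 1 mod M` implies `a ^ n ≡ 1 mod M`. -/
lemma cz_pow_sub_one {a : ℚ} (ha : IsAway q a) (h : IsCongZero q M (a - 1)) (n : ℕ) :
    IsCongZero q M (a ^ n - 1) := by
  induction n with
  | zero => simpa using cz_zero (q := q) (M := M)
  | succ n ih =>
    have : a ^ (n + 1) - 1 = a * (a ^ n - 1) + (a - 1) := by ring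
    rw [this]
    exact cz_add (cz_mul_left ha ih) h

/-- **Euler's theorem in `ℤ[1/q]`**: a unit `a` modulo `K` (with `K` prime to `q`) satisfies
`a ^ φ(K) ≡ 1 mod K ℤ[1/q]`. -/
lemma cz_pow_totient_sub_one (hq : q.Prime) (hKq : Nat.Coprime K q) {a d : ℚ}
    (ha : IsAway q a) (hd : IsAway q d) (h : IsCongZero q K (a * d - 1)) :
    IsCongZero q K (a ^ Nat.totient K - 1) := by
  obtain ⟨j, z, hz⟩ := ha
  obtain ⟨j', z', hz'⟩ := hd
  obtain ⟨r, ⟨i, y, hy⟩, hr⟩ := h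
  have hq0 : (q : ℚ) ≠ 0 := by exact_mod_cast hq.ne_zero
  -- integer identity `z z' q^i - q^(j+j'+i) = K y q^(j+j')`
  have hint : z * z' * (q : ℤ) ^ i - (q : ℤ) ^ (j + j' + i) = (K : ℤ) * y * (q : ℤ) ^ (j + j') := by
    have : ((z * z' * (q : ℤ) ^ i - (q : ℤ) ^ (j + j' + i) : ℤ) : ℚ)
        = (((K : ℤ) * y * (q : ℤ) ^ (j + j') : ℤ) : ℚ) := by
      push_cast
      rw [← hz, ← hz', ← hy]
      have : a * d = (K : ℚ) * r + 1 := by linarith
      calc a * (q : ℚ) ^ j * (d * (q : ℚ) ^ j') * (q : ℚ) ^ i - (q : ℚ) ^ (j + j' + i)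
          = (a * d - 1) * (q : ℚ) ^ (j + j' + i) := by ring
        _ = (K : ℚ) * r * (q : ℚ) ^ (j + j' + i) := by rw [hr]
        _ = (K : ℚ) * (r * (q : ℚ) ^ i) * (q : ℚ) ^ (j + j') := by ring
    exact_mod_cast this
  -- `q` is a unit mod `K`
  have hqu : IsUnit ((q : ℕ) : ZMod K) := (ZMod.isUnit_iff_coprime q K).2 hKq.symm
  -- `z` is a unit mod `K`
  have hzu : IsUnit ((z : ℤ) : ZMod K) := by
    have h1 : ((z : ℤ) : ZMod K) * (((z' : ℤ) : ZMod K) * ((q : ℕ) : ZMod K) ^ i)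
        = ((q : ℕ) : ZMod K) ^ (j + j' + i) := by
      have := congrArg (fun t : ℤ => (t : ZMod K)) hint
      simp only [Int.cast_sub, Int.cast_mul, Int.cast_pow, Int.cast_natCast,
        ZMod.natCast_self, zero_mul] at this
      have h2 : ((z : ℤ) : ZMod K) * (z' : ZMod K) * ((q : ℕ) : ZMod K) ^ i
          = ((q : ℕ) : ZMod K) ^ (j + j' + i) := sub_eq_zero.mp this
      rw [← h2]; ring
    exact isUnit_of_mul_isUnit_left (h1 ▸ hqu.pow _)
  -- Euler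
  have hzn : ((z : ℤ) : ZMod K) ^ Nat.totient K = 1 := by
    obtain ⟨uz, huz⟩ := hzu
    rw [← huz, ← Units.val_pow_eq_pow_val, ZMod.pow_totient, Units.val_one]
  have hqn : (((q : ℕ) : ZMod K) ^ j) ^ Nat.totient K = 1 := by
    obtain ⟨uq, huq⟩ := hqu.pow j
    rw [← huq, ← Units.val_pow_eq_pow_val, ZMod.pow_totient, Units.val_one]
  -- `K ∣ z^n - (q^j)^n`
  have hdvd : (K : ℤ) ∣ z ^ Nat.totient K - ((q : ℤ) ^ j) ^ Nat.totient K := by
    rw [← ZMod.intCast_zmod_eq_zero_iff_dvd]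
    push_cast
    rw [hzn, hqn, sub_self]
  obtain ⟨w, hw⟩ := hdvd
  set n := Nat.totient K with hn
  refine ⟨(w : ℚ) / ((q : ℚ) ^ j) ^ n, ⟨j * n, w, ?_⟩, ?_⟩
  · rw [pow_mul, div_mul_cancel₀]
    exact pow_ne_zero _ (pow_ne_zero _ hq0)
  · have hqjn : ((q : ℚ) ^ j) ^ n ≠ 0 := pow_ne_zero _ (pow_ne_zero _ hq0)
    have ha' : a = (z : ℚ) / (q : ℚ) ^ j := by
      rw [← hz]; field_simp
    have hw' : ((z : ℚ)) ^ n - ((q : ℚ) ^ j) ^ n = (K : ℚ) * w := by exact_mod_cast hw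
    rw [ha', div_pow]
    field_simp
    linarith

end Fermat.Agent.S41.CSP24
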