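/-
S41 / C4 [CSP], file F4 (B3) (helper24): the "torus kill" step of helper11's elementary proof of
the congruence subgroup property for `SL₂(ℤ[1/q])` (report #3042, STEP B, part (B3)).

`Γ' := {g ∈ Γ(m) : g₁₀ ∈ m k² A}` (`A = ℤ[1/q]`).  A map `D` which is additive on `Γ'`, kills the
unipotents (trace `2`) of `Γ'` and kills `Γ(m k⁴)` vanishes on `Γ'`, provided the values are
killed by `p` and `p ∤ φ(k⁴)`:
for `g = [[a,b],[c,d]] ∈ Γ'` put `a' := d (1 - b c)` (so `a a' = 1 - (b c)²`), `E := l(-c a') g u(-b a')`;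
then `D E = D g`, the off-diagonal entries of `E` are `b (bc)²`, `c (bc)²  ∈ m k⁴ A`, hence
`E ^ φ(k⁴) ∈ Γ(m k⁴)` (Euler in `ℤ[1/q]`), so `φ(k⁴) • D g = 0`.
-/
import Fermat.Agent.S41.CSP24.Arith

set_option autoImplicit false

namespace Fermat.Agent.S41.CSP24

open Matrix Fermat.Agent.S41.Amalgam95 Fermat.Agent.S41.Ihara95

variable {q m K : ℕ}

lemma isPrincipal_isAway {g : SLQ} (h : IsPrincipal q m g) :
    IsAway q (g 0 0) ∧ IsAway q (g 0 1) ∧ IsAway q (g 1 0) ∧ IsAway q (g 1 1) := by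
  obtain ⟨h00, h01, h10, h11⟩ := h
  refine ⟨?_, cz_isAway h01, cz_isAway h10, ?_⟩
  · have := (cz_isAway h00).add (IsAway.one (q := q))
    simpa using this
  · have := (cz_isAway h11).add (IsAway.one (q := q))
    simpa using this

lemma isPrincipal_one' : IsPrincipal q m (1 : SLQ) := by
  refine ⟨?_, ?_, ?_, ?_⟩
  · rw [one_00, sub_self]; exact cz_zero
  · rw [one_01]; exact cz_zero
  · rw [one_10]; exact cz_zero
  · rw [one_11, sub_self]; exact cz_zero

lemma isPrincipal_mul' {g h : SLQ} (hg : IsPrincipal q m g) (hh : IsPrincipal q m h) :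
    IsPrincipal q m (g * h) := by
  obtain ⟨ga, gb, gc, gd⟩ := isPrincipal_isAway hg
  obtain ⟨ha, hb, hc, hd⟩ := isPrincipal_isAway hh
  obtain ⟨g00, g01, g10, g11⟩ := hg
  obtain ⟨h00, h01, h10, h11⟩ := hh
  refine ⟨?_, ?_, ?_, ?_⟩
  · rw [mul_00]
    have : g 0 0 * h 0 0 + g 0 1 * h 1 0 - 1
        = (g 0 0 - 1) * h 0 0 + (h 0 0 - 1) + g 0 1 * h 1 0 := by ring
    rw [this]
    exact cz_add (cz_add (cz_mul_right g00 ha) h00) (cz_mul_right g01 hc)
  · rw [mul_01]
    exact cz_add (cz_mul_left ga h01) (cz_mul_right g01 hd)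
  · rw [mul_10]
    exact cz_add (cz_mul_right g10 ha) (cz_mul_left gd h10)
  · rw [mul_11]
    have : g 1 0 * h 0 1 + g 1 1 * h 1 1 - 1
        = g 1 0 * h 0 1 + (g 1 1 - 1) * h 1 1 + (h 1 1 - 1) := by ring
    rw [this]
    exact cz_add (cz_add (cz_mul_right g10 hb) (cz_mul_right g11 hd)) h11

/-- Powers of a matrix which is diagonal modulo `I = m K A`. -/
lemma pow_entries {E : SLQ} (ha : IsAway q (E 0 0)) (hd : IsAway q (E 1 1))
    (h01 : IsCongZero q (m * K) (E 0 1)) (h10 : IsCongZero q (m * K) (E 1 0)) (i : ℕ) :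
    IsCongZero q (m * K) ((E ^ i) 0 1) ∧ IsCongZero q (m * K) ((E ^ i) 1 0) ∧
      IsCongZero q (m * K) ((E ^ i) 0 0 - (E 0 0) ^ i) ∧
      IsCongZero q (m * K) ((E ^ i) 1 1 - (E 1 1) ^ i) := by
  induction i with
  | zero =>
    refine ⟨?_, ?_, ?_, ?_⟩
    · rw [pow_zero, one_01]; exact cz_zero
    · rw [pow_zero, one_10]; exact cz_zero
    · rw [pow_zero, pow_zero, one_00, sub_self]; exact cz_zero
    · rw [pow_zero, pow_zero, one_11, sub_self]; exact cz_zero
  | succ i ih =>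
    obtain ⟨i01, i10, i00, i11⟩ := ih
    have hb := cz_isAway h01
    have hc := cz_isAway h10
    have hi00 : IsAway q ((E ^ i) 0 0) := by
      have := (cz_isAway i00).add (isAway_pow ha i)
      simpa using this
    have hi11 : IsAway q ((E ^ i) 1 1) := by
      have := (cz_isAway i11).add (isAway_pow hd i)
      simpa using this
    rw [pow_succ]
    refine ⟨?_, ?_, ?_, ?_⟩
    · rw [mul_01]
      exact cz_add (cz_mul_left hi00 h01) (cz_mul_right i01 hd)
    · rw [mul_10]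
      exact cz_add (cz_mul_right i10 ha) (cz_mul_left hi11 h10)
    · rw [mul_00]
      have : (E ^ i) 0 0 * E 0 0 + (E ^ i) 0 1 * E 1 0 - E 0 0 ^ (i + 1)
          = ((E ^ i) 0 0 - E 0 0 ^ i) * E 0 0 + (E ^ i) 0 1 * E 1 0 := by ring
      rw [this]
      exact cz_add (cz_mul_right i00 ha) (cz_mul_right i01 hc)
    · rw [mul_11]
      have : (E ^ i) 1 0 * E 0 1 + (E ^ i) 1 1 * E 1 1 - E 1 1 ^ (i + 1)
          = (E ^ i) 1 0 * E 0 1 + ((E ^ i) 1 1 - E 1 1 ^ i) * E 1 1 := by ring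
      rw [this]
      exact cz_add (cz_mul_right i10 hb) (cz_mul_right i11 hd)

/-- If `E ∈ Γ(m)` is diagonal modulo `m K A` (`K` prime to `m q`), then `E ^ φ(K) ∈ Γ(m K)`. -/
theorem pow_totient_isPrincipal (hq : q.Prime) (hmK : Nat.Coprime m K) (hKq : Nat.Coprime K q)
    {E : SLQ} (hE : IsPrincipal q m E) (h01 : IsCongZero q (m * K) (E 0 1))
    (h10 : IsCongZero q (m * K) (E 1 0)) :
    IsPrincipal q (m * K) (E ^ Nat.totient K) := by
  obtain ⟨ha, hb, hc, hd⟩ := isPrincipal_isAway hE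
  obtain ⟨e00, -, -, e11⟩ := hE
  obtain ⟨p01, p10, p00, p11⟩ := pow_entries ha hd h01 h10 (Nat.totient K)
  have hdet := det_eq E
  have hKdvd : K ∣ m * K := Dvd.intro_left m rfl
  -- `a d ≡ 1 mod K`
  have had : IsCongZero q K (E 0 0 * E 1 1 - 1) := by
    have : E 0 0 * E 1 1 - 1 = E 0 1 * E 1 0 := by linarith
    rw [this]
    exact cz_mul_right (cz_of_dvd hKdvd h01) hc
  have hda : IsCongZero q K (E 1 1 * E 0 0 - 1) := by
    rw [mul_comm]; exact had
  have ha1 : IsCongZero q (m * K) (E 0 0 ^ Nat.totient K - 1) :=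
    cz_mul_of_coprime hmK (cz_pow_sub_one ha e00 _) (cz_pow_totient_sub_one hq hKq ha hd had)
  have hd1 : IsCongZero q (m * K) (E 1 1 ^ Nat.totient K - 1) :=
    cz_mul_of_coprime hmK (cz_pow_sub_one hd e11 _) (cz_pow_totient_sub_one hq hKq hd ha hda)
  refine ⟨?_, p01, p10, ?_⟩
  · have : (E ^ Nat.totient K) 0 0 - 1
        = ((E ^ Nat.totient K) 0 0 - E 0 0 ^ Nat.totient K) + (E 0 0 ^ Nat.totient K - 1) := by ring
    rw [this]; exact cz_add p00 ha1
  · have : (E ^ Nat.totient K) 1 1 - 1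
        = ((E ^ Nat.totient K) 1 1 - E 1 1 ^ Nat.totient K) + (E 1 1 ^ Nat.totient K - 1) := by ring
    rw [this]; exact cz_add p11 hd1

/-- the arithmetic side condition of STEP B: if no prime factor `l` of `k` is `≡ 0, 1 mod p`, then
`p` is prime to `φ(k⁴)`. -/
theorem coprime_totient_pow_four {p k : ℕ} (hp : p.Prime)
    (h : ∀ l : ℕ, l.Prime → l ∣ k → ¬ p ∣ l ∧ ¬ p ∣ l - 1) :
    Nat.Coprime p (Nat.totient (k ^ 4)) := by
  rw [Nat.Prime.coprime_iff_not_dvd hp]
  intro hdvd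
  have h1 : p ∣ k ^ 4 * ∏ l ∈ (k ^ 4).primeFactors, (l - 1) := by
    rw [← Nat.totient_mul_prod_primeFactors]
    exact Dvd.dvd.mul_right hdvd _
  rw [Nat.primeFactors_pow k (by norm_num : (4 : ℕ) ≠ 0)] at h1
  rcases (Nat.Prime.dvd_mul hp).1 h1 with h2 | h2
  · have hpk : p ∣ k := hp.dvd_of_dvd_pow h2
    exact (h p hp hpk).1 dvd_rfl
  · obtain ⟨l, hl, hpl⟩ := (Nat.Prime.prime hp).exists_mem_finset_dvd h2
    have hlp := Nat.prime_of_mem_primeFactors hl
    have hlk := Nat.dvd_of_mem_primeFactors hl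
    exact (h l hlp hlk).2 hpl

/-- membership in `Γ' = {g ∈ Γ(m) : g₁₀ ∈ m k² A}` (the elements `g` of `Γ(m)` with
`h(k) g h(k)⁻¹ ∈ Γ(m)`). -/
def InGam' (q m k : ℕ) (g : SLQ) : Prop :=
  IsPrincipal q m g ∧ IsCongZero q (m * k ^ 2) (g 1 0)

lemma inGam'_one {k : ℕ} : InGam' q m k (1 : SLQ) :=
  ⟨isPrincipal_one', by rw [one_10]; exact cz_zero⟩

lemma inGam'_mul {k : ℕ} {g h : SLQ} (hg : InGam' q m k g) (hh : InGam' q m k h) :
    InGam' q m k (g * h) := by
  refine ⟨isPrincipal_mul' hg.1 hh.1, ?_⟩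
  rw [mul_10]
  exact cz_add (cz_mul_right hg.2 (isPrincipal_isAway hh.1).1)
    (cz_mul_left (isPrincipal_isAway hg.1).2.2.2 hh.2)

lemma inGam'_pow {k : ℕ} {g : SLQ} (hg : InGam' q m k g) (i : ℕ) : InGam' q m k (g ^ i) := by
  induction i with
  | zero => rw [pow_zero]; exact inGam'_one
  | succ i ih => rw [pow_succ]; exact inGam'_mul ih hg

/-- **STEP B, part (B3)** of helper11's proof of the congruence subgroup property (report #3042):
a map `D` on `SL₂(ℚ)` which is additive on `Γ' = {g ∈ Γ(m) : g₁₀ ∈ m k² A}`, kills the trace-`2`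
elements of `Γ'` and kills `Γ(m k⁴)`, with values killed by `p` prime to `φ(k⁴)`, vanishes on
`Γ'`. -/
theorem torus_kill {V : Type*} [AddCommGroup V] {p k : ℕ} (hq : q.Prime)
    (hkm : k.Coprime m) (hkq : k.Coprime q) (hV : ∀ v : V, p • v = 0)
    (hpk : p.Coprime (Nat.totient (k ^ 4))) (D : SLQ → V)
    (hmul : ∀ g h, InGam' q m k g → InGam' q m k h → D (g * h) = D g + D h)
    (hunip : ∀ g, InGam' q m k g → g 0 0 + g 1 1 = 2 → D g = 0)
    (hdeep : ∀ g, IsPrincipal q (m * k ^ 4) g → D g = 0) :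
    ∀ g, InGam' q m k g → D g = 0 := by
  intro g hg
  obtain ⟨hgP, hc⟩ := hg
  obtain ⟨ha, hb, hcA, hd⟩ := isPrincipal_isAway hgP
  have hdet := det_eq g
  set a := g 0 0 with ha_def
  set b := g 0 1 with hb_def
  set c := g 1 0 with hc_def
  set d := g 1 1 with hd_def
  have hbm : IsCongZero q m b := hgP.2.1
  have hcm : IsCongZero q m c := hgP.2.2.1
  -- the approximate inverse of `a` modulo `k⁴`
  set a' : ℚ := d * (1 - b * c) with ha'_def
  have ha' : IsAway q a' := hd.mul ((IsAway.one).sub (hb.mul hcA))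
  have haa' : 1 - a * a' = (b * c) ^ 2 := by
    have : a * d = 1 + b * c := by linarith
    calc 1 - a * a' = 1 - (a * d) * (1 - b * c) := by rw [ha'_def]; ring
      _ = (b * c) ^ 2 := by rw [this]; ring
  -- the two unipotents
  let L : SLQ := mkQ 1 0 (-(c * a')) 1 (by ring)
  let U : SLQ := mkQ 1 (-(b * a')) 0 1 (by ring)
  have hL : InGam' q m k L := by
    refine ⟨⟨?_, ?_, ?_, ?_⟩, ?_⟩
    · simp only [L, mkQ_00, sub_self]; exact cz_zero
    · simp only [L, mkQ_01]; exact cz_zero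
    · simp only [L, mkQ_10]; exact cz_neg (cz_mul_right hcm ha')
    · simp only [L, mkQ_11, sub_self]; exact cz_zero
    · simp only [L, mkQ_10]; exact cz_neg (cz_mul_right hc ha')
  have hU : InGam' q m k U := by
    refine ⟨⟨?_, ?_, ?_, ?_⟩, ?_⟩
    · simp only [U, mkQ_00, sub_self]; exact cz_zero
    · simp only [U, mkQ_01]; exact cz_neg (cz_mul_right hbm ha')
    · simp only [U, mkQ_10]; exact cz_zero
    · simp only [U, mkQ_11, sub_self]; exact cz_zero
    · simp only [U, mkQ_10]; exact cz_zero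
  have hDL : D L = 0 := hunip L hL (by simp only [L, mkQ_00, mkQ_11]; norm_num)
  have hDU : D U = 0 := hunip U hU (by simp only [U, mkQ_00, mkQ_11]; norm_num)
  have hg' : InGam' q m k g := ⟨hgP, hc⟩
  have hLg : InGam' q m k (L * g) := inGam'_mul hL hg'
  set E : SLQ := L * g * U with hE_def
  have hE : InGam' q m k E := inGam'_mul hLg hU
  have hDE : D E = D g := by
    rw [hE_def, hmul _ _ hLg hU, hmul _ _ hL hg', hDL, hDU, zero_add, add_zero]
  -- the off-diagonal entries of `E`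
  have hE01 : E 0 1 = (b * b * b) * (c * c) := by
    rw [hE_def, mul_01, mul_00, mul_01]
    simp only [L, U, mkQ_00, mkQ_01, mkQ_11]
    have : b * (1 - a * a') = (b * b * b) * (c * c) := by rw [haa']; ring
    rw [← this]; ring
  have hE10 : E 1 0 = (b * b * c) * (c * c) := by
    rw [hE_def, mul_10, mul_10, mul_11]
    simp only [L, U, mkQ_00, mkQ_10, mkQ_11]
    have : c * (1 - a * a') = (b * b * c) * (c * c) := by rw [haa']; ring
    rw [← this]; ring
  have hcc : IsCongZero q (m * k ^ 4) (c * c) := by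
    refine cz_of_dvd ?_ (cz_mul_cz hc hc)
    exact ⟨m, by ring⟩
  have h01 : IsCongZero q (m * k ^ 4) (E 0 1) := by
    rw [hE01]; exact cz_mul_left ((hb.mul hb).mul hb) hcc
  have h10 : IsCongZero q (m * k ^ 4) (E 1 0) := by
    rw [hE10]; exact cz_mul_left ((hb.mul hb).mul hcA) hcc
  -- `E ^ φ(k⁴) ∈ Γ(m k⁴)`
  have hmK : Nat.Coprime m (k ^ 4) := (Nat.Coprime.pow_left 4 hkm).symm
  have hKq : Nat.Coprime (k ^ 4) q := Nat.Coprime.pow_left 4 hkq
  have hpow : IsPrincipal q (m * k ^ 4) (E ^ Nat.totient (k ^ 4)) :=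
    pow_totient_isPrincipal hq hmK hKq hE.1 h01 h10
  -- `D (E ^ i) = i • D E`
  have hD1 : D (1 : SLQ) = 0 := by
    have := hmul 1 1 inGam'_one inGam'_one
    rw [mul_one] at this
    have h2 : D (1 : SLQ) + 0 = D 1 + D 1 := by rw [add_zero]; exact this
    exact (add_left_cancel h2).symm
  have hDpow : ∀ i : ℕ, D (E ^ i) = i • D E := by
    intro i
    induction i with
    | zero => rw [pow_zero, zero_smul, hD1]
    | succ i ih => rw [pow_succ, hmul _ _ (inGam'_pow hE i) hE, ih, succ_nsmul]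
  have hn : Nat.totient (k ^ 4) • D E = 0 := by
    rw [← hDpow]; exact hdeep _ hpow
  have hp : p • D E = 0 := hV _
  have h1 : addOrderOf (D E) ∣ Nat.gcd p (Nat.totient (k ^ 4)) :=
    Nat.dvd_gcd (addOrderOf_dvd_of_nsmul_eq_zero hp) (addOrderOf_dvd_of_nsmul_eq_zero hn)
  rw [hpk.gcd_eq_one, Nat.dvd_one, AddMonoid.addOrderOf_eq_one_iff] at h1
  rw [← hDE]; exact h1

end Fermat.Agent.S41.CSP24
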