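/-
S41 / C4 [CSP], file F4 (helper24): STEP B of helper11's elementary proof of the congruence subgroup
property for `SL₂(ℤ[1/q])` (report #3042), in the landed vocabulary of `CSP11.{Basic,StepA}`:

a parabolic hom `Φ` of level `m` with values killed by `p` is invariant under conjugation by
`h(k) = diag(k, 1/k)` (`k` an integer prime to `m q` none of whose prime factors is `≡ 0, 1 mod p`)
on `Γ' = {g ∈ Γ(m) : g₁₀ ∈ m k² ℤ[1/q]}`.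

* (B1) `Ψ := Φ ∘ c_{h(k)}` is a parabolic hom of level `m k²`; Step A for `Ψ` and `l(-k)` gives
  `Φ (l(-1/k) g l(1/k)) = Φ g` on `Γ(m k⁴)`;
* (B2) `h(k) = u(k) l(-1/k) u(k) w⁻¹`, hence `Φ ∘ c_{h(k)} = Φ` on `Γ(m k⁴)`;
* (B3) `CSP24.torus_kill`.
-/
import Fermat.Agent.S41.CSP11.StepA
import Fermat.Agent.S41.CSP24.TorusKill

set_option autoImplicit false
set_option linter.unusedSectionVars false
set_option linter.unusedSimpArgs false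

namespace Fermat.Agent.S41.CSP24

open Matrix Fermat.Agent.S41.Amalgam95 Fermat.Agent.S41.Ihara95 Fermat.Agent.S41.CSP11

/-! ### matrix identities for the torus -/

lemma hQ_inv_eq {e : ℚ} (he : e ≠ 0) : (hQ e)⁻¹ = hQ e⁻¹ := by
  have he' : e⁻¹ ≠ 0 := inv_ne_zero he
  apply ext_entries
  · rw [inv_00, hQ_11 he, hQ_00 he']
  · rw [inv_01, hQ_01 he, hQ_01 he', neg_zero]
  · rw [inv_10, hQ_10 he, hQ_10 he', neg_zero]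
  · rw [inv_11, hQ_00 he, hQ_11 he', inv_inv]

lemma hQ_conj_00 {e : ℚ} (he : e ≠ 0) (g : SLQ) : (hQ e * g * (hQ e)⁻¹) 0 0 = g 0 0 := by
  rw [mul_00, mul_00, mul_01, inv_00, inv_10, hQ_00 he, hQ_01 he, hQ_10 he, hQ_11 he]
  field_simp
  ring

lemma hQ_conj_01 {e : ℚ} (he : e ≠ 0) (g : SLQ) : (hQ e * g * (hQ e)⁻¹) 0 1 = e ^ 2 * g 0 1 := by
  rw [mul_01, mul_00, mul_01, inv_01, inv_11, hQ_00 he, hQ_01 he]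
  ring

lemma hQ_conj_10 {e : ℚ} (he : e ≠ 0) (g : SLQ) : (hQ e * g * (hQ e)⁻¹) 1 0 = g 1 0 / e ^ 2 := by
  rw [mul_10, mul_10, mul_11, inv_00, inv_10, hQ_10 he, hQ_11 he]
  field_simp
  ring

lemma hQ_conj_11 {e : ℚ} (he : e ≠ 0) (g : SLQ) : (hQ e * g * (hQ e)⁻¹) 1 1 = g 1 1 := by
  rw [mul_11, mul_10, mul_11, inv_01, inv_11, hQ_00 he, hQ_01 he, hQ_10 he, hQ_11 he]
  field_simp
  ring

lemma hQ_conj_lQ {e : ℚ} (he : e ≠ 0) (t : ℚ) : hQ e * lQ t * (hQ e)⁻¹ = lQ (t / e ^ 2) := by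
  apply ext_entries
  · rw [hQ_conj_00 he]; simp
  · rw [hQ_conj_01 he]; simp
  · rw [hQ_conj_10 he]; simp
  · rw [hQ_conj_11 he]; simp

/-- `h(e) = u(e) l(-1/e) u(e) w⁻¹` -/
lemma hQ_eq_prod_w {e : ℚ} (he : e ≠ 0) : hQ e = uQ e * lQ (-1 / e) * uQ e * wQ⁻¹ := by
  rw [wQ_inv]
  apply ext_entries
  · rw [hQ_00 he]
    simp only [mul_00, mul_01, mul_10, mul_11, uQ_00, uQ_01, uQ_10, uQ_11, lQ_00, lQ_01, lQ_10,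
      lQ_11, mkQ_00, mkQ_01, mkQ_10, mkQ_11]
    field_simp
    ring
  · rw [hQ_01 he]
    simp only [mul_00, mul_01, mul_10, mul_11, uQ_00, uQ_01, uQ_10, uQ_11, lQ_00, lQ_01, lQ_10,
      lQ_11, mkQ_00, mkQ_01, mkQ_10, mkQ_11]
    field_simp
    ring
  · rw [hQ_10 he]
    simp only [mul_00, mul_01, mul_10, mul_11, uQ_00, uQ_01, uQ_10, uQ_11, lQ_00, lQ_01, lQ_10,
      lQ_11, mkQ_00, mkQ_01, mkQ_10, mkQ_11]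
    field_simp
    ring
  · rw [hQ_11 he]
    simp only [mul_00, mul_01, mul_10, mul_11, uQ_00, uQ_01, uQ_10, uQ_11, lQ_00, lQ_01, lQ_10,
      lQ_11, mkQ_00, mkQ_01, mkQ_10, mkQ_11]
    field_simp
    ring

/-! ### STEP B -/

section

variable {q m k p : ℕ} {V : Type} [AddCommGroup V] {Φ : SLQ → V}

/-- `h(k) Γ' h(k)⁻¹ ⊆ Γ(m)` for `Γ' = {g ∈ Γ(m) : g₁₀ ∈ m k² A}`. -/
lemma hQ_conj_mem_Gam (hk : k ≠ 0) {g : SLQ} (hg : g ∈ Gam q m)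
    (hc : CZ q (m * k ^ 2) (g 1 0)) : hQ (k : ℚ) * g * (hQ (k : ℚ))⁻¹ ∈ Gam q m := by
  have hκ : (k : ℚ) ≠ 0 := by exact_mod_cast hk
  have hgP := (mem_Gam_iff q m g).1 hg
  rw [mem_Gam_iff]
  refine ⟨?_, ?_, ?_, ?_⟩
  · rw [hQ_conj_00 hκ]; exact hgP.c00
  · rw [hQ_conj_01 hκ]
    exact CZ.away_mul (CSP11.isAway_pow (CSP11.isAway_natCast q k) 2) hgP.c01
  · rw [hQ_conj_10 hκ]
    obtain ⟨r, hr, h10⟩ := hc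
    refine ⟨r, hr, ?_⟩
    rw [h10]; push_cast; field_simp
  · rw [hQ_conj_11 hκ]; exact hgP.c11

/-- `h(k)⁻¹ Γ(m k⁴) h(k) ⊆ Γ(m k²)`. -/
lemma hQ_inv_conj_mem_Gam (hk : k ≠ 0) {g : SLQ} (hg : g ∈ Gam q (m * k ^ 4)) :
    (hQ (k : ℚ))⁻¹ * g * hQ (k : ℚ) ∈ Gam q (m * k ^ 2) := by
  have hκ : (k : ℚ) ≠ 0 := by exact_mod_cast hk
  have hκ' : ((k : ℚ))⁻¹ ≠ 0 := inv_ne_zero hκ
  have hgP := (mem_Gam_iff q (m * k ^ 4) g).1 hg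
  have hdvd : m * k ^ 2 ∣ m * k ^ 4 := ⟨k ^ 2, by ring⟩
  have e : (hQ (k : ℚ))⁻¹ * g * hQ (k : ℚ) = hQ ((k : ℚ))⁻¹ * g * (hQ ((k : ℚ))⁻¹)⁻¹ := by
    rw [hQ_inv_eq hκ, hQ_inv_eq hκ', inv_inv]
  rw [e, mem_Gam_iff]
  refine ⟨?_, ?_, ?_, ?_⟩
  · rw [hQ_conj_00 hκ']; exact hgP.c00.of_dvd hdvd
  · rw [hQ_conj_01 hκ']
    obtain ⟨r, hr, h01⟩ := hgP.c01
    refine ⟨r, hr, ?_⟩
    rw [h01]; push_cast; field_simp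
  · rw [hQ_conj_10 hκ']
    have : g 1 0 / ((k : ℚ))⁻¹ ^ 2 = (k : ℚ) ^ 2 * g 1 0 := by field_simp
    rw [this]
    exact CZ.away_mul (CSP11.isAway_pow (CSP11.isAway_natCast q k) 2) (hgP.c10.of_dvd hdvd)
  · rw [hQ_conj_11 hκ']; exact hgP.c11.of_dvd hdvd

/-- **(B1)**: `Φ (l(-1/k) g l(1/k)) = Φ g` for `g ∈ Γ(m k⁴)`. -/
lemma stepB1 (hm : m ≠ 0) (hk : k ≠ 0) (hNTmk : NTInput q (m * k ^ 2)) (h : ParHom q m Φ)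
    {g : SLQ} (hg : g ∈ Gam q (m * k ^ 4)) :
    Φ (lQ (-1 / (k : ℚ)) * g * (lQ (-1 / (k : ℚ)))⁻¹) = Φ g ∧
      lQ (-1 / (k : ℚ)) * g * (lQ (-1 / (k : ℚ)))⁻¹ ∈ Gam q m := by
  have hκ : (k : ℚ) ≠ 0 := by exact_mod_cast hk
  have hdvd : m ∣ m * k ^ 2 := Dvd.intro _ rfl
  have hmk : m * k ^ 2 ≠ 0 := mul_ne_zero hm (pow_ne_zero 2 hk)
  -- `Ψ = Φ ∘ c_{h(k)}` is a parabolic hom of level `m k²`
  have hΨ : ParHom q (m * k ^ 2) (fun g => Φ (hQ (k : ℚ) * g * (hQ (k : ℚ))⁻¹)) :=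
    h.conj_of (fun g hg => hQ_conj_mem_Gam hk (Gam_mono q hdvd hg)
      ((mem_Gam_iff q (m * k ^ 2) g).1 hg).c10)
  have hκA : IsAway q (-(k : ℚ)) := (CSP11.isAway_natCast q k).neg
  have hA := stepA_lQ hmk hNTmk hΨ hκA
  have hy := hQ_inv_conj_mem_Gam (q := q) (m := m) hk hg
  have hA' := hA _ hy
  simp only at hA'
  have hly : lQ (-(k : ℚ)) * ((hQ (k : ℚ))⁻¹ * g * hQ (k : ℚ)) * (lQ (-(k : ℚ)))⁻¹
      ∈ Gam q (m * k ^ 2) := Gam_conj_mem (lQ_mem_GA hκA) hy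
  have e1 : hQ (k : ℚ) * ((hQ (k : ℚ))⁻¹ * g * hQ (k : ℚ)) * (hQ (k : ℚ))⁻¹ = g := by group
  have e2 : hQ (k : ℚ) * (lQ (-(k : ℚ)) * ((hQ (k : ℚ))⁻¹ * g * hQ (k : ℚ)) * (lQ (-(k : ℚ)))⁻¹)
        * (hQ (k : ℚ))⁻¹
      = (hQ (k : ℚ) * lQ (-(k : ℚ)) * (hQ (k : ℚ))⁻¹) * g
        * (hQ (k : ℚ) * lQ (-(k : ℚ)) * (hQ (k : ℚ))⁻¹)⁻¹ := by group
  have e3 : -(k : ℚ) / (k : ℚ) ^ 2 = -1 / (k : ℚ) := by field_simp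
  have hmem := hQ_conj_mem_Gam hk (Gam_mono q hdvd hly)
    ((mem_Gam_iff q (m * k ^ 2) _).1 hly).c10
  rw [e2, hQ_conj_lQ hκ, e3] at hmem
  rw [e1, e2, hQ_conj_lQ hκ, e3] at hA'
  exact ⟨hA', hmem⟩

/-- **(B2)**: `Φ ∘ c_{h(k)} = Φ` on `Γ(m k⁴)`. -/
lemma stepB2 (hm : m ≠ 0) (hk : k ≠ 0) (hNTm : NTInput q m) (hNTmk : NTInput q (m * k ^ 2))
    (h : ParHom q m Φ) {g : SLQ} (hg : g ∈ Gam q (m * k ^ 4)) :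
    Φ (hQ (k : ℚ) * g * (hQ (k : ℚ))⁻¹) = Φ g := by
  have hκ : (k : ℚ) ≠ 0 := by exact_mod_cast hk
  have hdvd : m ∣ m * k ^ 4 := Dvd.intro _ rfl
  have hκA : IsAway q (k : ℚ) := CSP11.isAway_natCast q k
  have hw : wQ ∈ GA q := wQ_mem_GA q
  -- `g₁ = w⁻¹ g w`
  have hg1 : wQ⁻¹ * g * wQ ∈ Gam q (m * k ^ 4) := by
    have := Gam_conj_mem ((GA q).inv_mem hw) hg
    rwa [inv_inv] at this
  have hΦ1 : Φ (wQ⁻¹ * g * wQ) = Φ g := by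
    have := (stepA_wQ hm hNTm h).inv hw g (Gam_mono q hdvd hg)
    rwa [inv_inv] at this
  -- `g₂ = u(k) g₁ u(-k)`
  have hg2 : uQ (k : ℚ) * (wQ⁻¹ * g * wQ) * (uQ (k : ℚ))⁻¹ ∈ Gam q (m * k ^ 4) :=
    Gam_conj_mem (uQ_mem_GA hκA) hg1
  have hΦ2 := stepA_uQ hm hNTm h hκA _ (Gam_mono q hdvd hg1)
  -- `g₃ = l(-1/k) g₂ l(1/k)`
  obtain ⟨hΦ3, hg3⟩ := stepB1 hm hk hNTmk h hg2
  -- `g₄ = u(k) g₃ u(-k) = h(k) g h(k)⁻¹`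
  have hΦ4 := stepA_uQ hm hNTm h hκA _ hg3
  have e : hQ (k : ℚ) * g * (hQ (k : ℚ))⁻¹
      = uQ (k : ℚ) * (lQ (-1 / (k : ℚ)) * (uQ (k : ℚ) * (wQ⁻¹ * g * wQ) * (uQ (k : ℚ))⁻¹)
          * (lQ (-1 / (k : ℚ)))⁻¹) * (uQ (k : ℚ))⁻¹ := by
    rw [hQ_eq_prod_w hκ]; group
  rw [e, hΦ4, hΦ3, hΦ2, hΦ1]

/-- **STEP B** of helper11's proof of the congruence subgroup property (report #3042): a parabolic
hom `Φ` of level `m` with values killed by `p` is invariant under conjugation by `h(k)` on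
`Γ' = {g ∈ Γ(m) : g₁₀ ∈ m k² ℤ[1/q]}`, for every integer `k` prime to `m q` none of whose prime
factors is `≡ 0, 1 mod p`. -/
theorem stepB (hp : p.Prime) (hV : ∀ v : V, p • v = 0) (hq : q.Prime) (hm : m ≠ 0) (hk : k ≠ 0)
    (hkm : k.Coprime m) (hkq : k.Coprime q)
    (hkp : ∀ l : ℕ, l.Prime → l ∣ k → ¬ p ∣ l ∧ ¬ p ∣ l - 1)
    (hNTm : NTInput q m) (hNTmk : NTInput q (m * k ^ 2)) (h : ParHom q m Φ)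
    {g : SLQ} (hg : g ∈ Gam q m) (hc : CZ q (m * k ^ 2) (g 1 0)) :
    Φ (hQ (k : ℚ) * g * (hQ (k : ℚ))⁻¹) = Φ g := by
  have key := torus_kill (q := q) (m := m) (k := k) hq hkm hkq hV
    (coprime_totient_pow_four hp hkp)
    (fun g => Φ (hQ (k : ℚ) * g * (hQ (k : ℚ))⁻¹) - Φ g) ?_ ?_ ?_ g ⟨hg, hc⟩
  · exact sub_eq_zero.mp key
  · rintro g₁ g₂ ⟨hg₁, hc₁⟩ ⟨hg₂, hc₂⟩
    have hg₁' : g₁ ∈ Gam q m := hg₁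
    have hg₂' : g₂ ∈ Gam q m := hg₂
    have e : hQ (k : ℚ) * (g₁ * g₂) * (hQ (k : ℚ))⁻¹
        = (hQ (k : ℚ) * g₁ * (hQ (k : ℚ))⁻¹) * (hQ (k : ℚ) * g₂ * (hQ (k : ℚ))⁻¹) := by group
    show Φ (hQ (k : ℚ) * (g₁ * g₂) * (hQ (k : ℚ))⁻¹) - Φ (g₁ * g₂) = _
    rw [e, h.map_mul _ _ (hQ_conj_mem_Gam hk hg₁' hc₁) (hQ_conj_mem_Gam hk hg₂' hc₂),
      h.map_mul g₁ g₂ hg₁' hg₂']
    abel
  · rintro g₁ ⟨hg₁, hc₁⟩ htr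
    have hg₁' : g₁ ∈ Gam q m := hg₁
    show Φ (hQ (k : ℚ) * g₁ * (hQ (k : ℚ))⁻¹) - Φ g₁ = 0
    rw [h.map_unip _ (hQ_conj_mem_Gam hk hg₁' hc₁) (isUnip_conj _ _ htr),
      h.map_unip g₁ hg₁' htr, sub_zero]
  · intro g₁ hg₁
    have hg₁' : g₁ ∈ Gam q (m * k ^ 4) := hg₁
    show Φ (hQ (k : ℚ) * g₁ * (hQ (k : ℚ))⁻¹) - Φ g₁ = 0
    rw [stepB2 hm hk hNTm hNTmk h hg₁', sub_self]

end

end Fermat.Agent.S41.CSP24
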